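/-
S26, block CURVES (architect helper26), leaf ALG-CO3: a noetherian local ring whose maximal ideal is
generated by a nonzerodivisor is a domain.  Mathlib only.
-/
import Mathlib

set_option autoImplicit false

namespace Fermat.Agent.S26.Curves

/-- every nonzero element is a unit times a power of `π`. -/
theorem LocalDomain_exists_unit_mul_pow {S : Type*} [CommRing S] [IsLocalRing S]
    [IsNoetherianRing S] (π : S) (hπ : IsLocalRing.maximalIdeal S = Ideal.span {π})
    {x : S} (hx : x ≠ 0) : ∃ (u : S) (k : ℕ), IsUnit u ∧ x = u * π ^ k := by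
  classical
  have hK : (⨅ i : ℕ, (IsLocalRing.maximalIdeal S) ^ i) = ⊥ :=
    Ideal.iInf_pow_eq_bot_of_isLocalRing _ (IsLocalRing.maximalIdeal.isMaximal S).ne_top
  have hex : ∃ n : ℕ, x ∉ (IsLocalRing.maximalIdeal S) ^ n := by
    by_contra hcon
    push Not at hcon
    apply hx
    have : x ∈ (⨅ i : ℕ, (IsLocalRing.maximalIdeal S) ^ i) := by
      rw [Ideal.mem_iInf]
      exact hcon
    rwa [hK, Ideal.mem_bot] at this
  have hn := Nat.find_spec hex
  have hmin := fun m => Nat.find_min hex (m := m)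
  set n := Nat.find hex with hndef
  have hn0 : n ≠ 0 := by
    intro h0
    apply hn
    rw [h0, pow_zero, Ideal.one_eq_top]
    exact Submodule.mem_top
  obtain ⟨k, hk⟩ := Nat.exists_eq_succ_of_ne_zero hn0
  have hxk : x ∈ (IsLocalRing.maximalIdeal S) ^ k := by
    have := hmin k (by omega)
    rwa [not_not] at this
  rw [hπ, Ideal.span_singleton_pow, Ideal.mem_span_singleton] at hxk
  obtain ⟨u, hu⟩ := hxk
  refine ⟨u, k, ?_, by rw [hu, mul_comm]⟩
  by_contra hnu
  have humem : u ∈ IsLocalRing.maximalIdeal S := (IsLocalRing.mem_maximalIdeal u).2 hnu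
  rw [hπ, Ideal.mem_span_singleton] at humem
  obtain ⟨w, hw⟩ := humem
  apply hn
  rw [hk, hπ, Ideal.span_singleton_pow, Ideal.mem_span_singleton]
  exact ⟨w, by rw [hu, hw, pow_succ]; ring⟩

/-- (Krull intersection `Ideal.iInf_pow_eq_bot_of_isLocalRing`: every `x ≠ 0` is `u * π ^ k` with
`u` a unit; a product of two such elements is `u u' π ^ (k + l) ≠ 0` because `π` is a
nonzerodivisor.) -/
theorem isDomain_of_maximalIdeal_eq_span {S : Type*} [CommRing S] [IsLocalRing S]
    [IsNoetherianRing S] (π : S) (hπ : IsLocalRing.maximalIdeal S = Ideal.span {π})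
    (hreg : π ∈ nonZeroDivisors S) : IsDomain S := by
  have : NoZeroDivisors S := by
    refine ⟨fun {a b} hab => ?_⟩
    by_contra hcon
    push Not at hcon
    obtain ⟨u, k, hu, rfl⟩ := LocalDomain_exists_unit_mul_pow π hπ hcon.1
    obtain ⟨u', l, hu', rfl⟩ := LocalDomain_exists_unit_mul_pow π hπ hcon.2
    have h1 : (u * u') * π ^ (k + l) = 0 := by
      rw [← hab, pow_add]; ring
    have h2 : u * u' = 0 :=
      (mul_right_mem_nonZeroDivisors_eq_zero_iff (pow_mem hreg (k + l))).1 h1
    exact (hu.mul hu').ne_zero h2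
  exact NoZeroDivisors.to_isDomain S

end Fermat.Agent.S26.Curves
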