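/-
S26, block CURVES (architect helper26), leaf ALG-CO2: `t_i` is a nonzerodivisor modulo the other
coordinates.  Mathlib only.
-/
import Mathlib

set_option autoImplicit false

universe u

open MvPolynomial

namespace Fermat.Agent.S26.Curves

variable {K B : Type u} [Field K] [CommRing B] [Algebra K B] {g : ℕ}

/-- In the polynomial ring: `J_i = (X_j)_{j ≠ i}` is prime and does not contain `X_i`; more precisely
`X_i * p ∈ J_i → p ∈ J_i`.
(`J_i` is the kernel of `ρ : K[X_1..X_g] → K[X]`, `X_i ↦ X`, `X_j ↦ 0`: show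
`p - ι (ρ p) ∈ J_i` by induction on `p`, where `ι X = X_i`.) -/
theorem coord_poly_regular (i : Fin g) (p : MvPolynomial (Fin g) K)
    (h : X i * p ∈ Ideal.span (Set.range fun j : {j : Fin g // j ≠ i} =>
      (X (j : Fin g) : MvPolynomial (Fin g) K))) :
    p ∈ Ideal.span (Set.range fun j : {j : Fin g // j ≠ i} =>
      (X (j : Fin g) : MvPolynomial (Fin g) K)) := by
  have hr : (Set.range fun j : {j : Fin g // j ≠ i} => (X (j : Fin g) : MvPolynomial (Fin g) K))
      = X '' {j : Fin g | j ≠ i} := by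
    ext q
    constructor
    · rintro ⟨j, rfl⟩
      exact ⟨j, j.2, rfl⟩
    · rintro ⟨j, hj, rfl⟩
      exact ⟨⟨j, hj⟩, rfl⟩
  rw [hr, mem_ideal_span_X_image] at h ⊢
  intro m hm
  have hm' : Finsupp.single i 1 + m ∈ (X i * p).support := by
    rw [mem_support_iff, coeff_X_mul]
    exact mem_support_iff.1 hm
  obtain ⟨j, hj, hjm⟩ := h _ hm'
  refine ⟨j, hj, ?_⟩
  rw [Finsupp.add_apply, Finsupp.single_eq_of_ne (by exact hj), zero_add] at hjm
  exact hjm

/-- (`B` is flat over `P = K[X_1..X_g]`.  Multiplication by `X_i` is injective on `P ⧸ J_i`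
(`coord_poly_regular`), so it stays injective on `B ⊗_P (P ⧸ J_i) = B ⧸ J_i B`
(`Module.Flat.lTensor_preserves_injective_linearMap`, or `IsSMulRegular` + flatness:
`Module.Flat.isSMulRegular...`), and `J_i B` is the span of the `φ (X j)`, `j ≠ i`
(`Ideal.map_span`).) -/
theorem coord_regular (φ : MvPolynomial (Fin g) K →ₐ[K] B) (hφ : φ.toRingHom.Flat)
    (i : Fin g) (x : B)
    (h : φ (X i) * x ∈ Ideal.span (Set.range fun j : {j : Fin g // j ≠ i} => φ (X (j : Fin g)))) :
    x ∈ Ideal.span (Set.range fun j : {j : Fin g // j ≠ i} => φ (X (j : Fin g))) := by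
  let _ : Algebra (MvPolynomial (Fin g) K) B := φ.toRingHom.toAlgebra
  have : Module.Flat (MvPolynomial (Fin g) K) B := hφ
  set J : Ideal (MvPolynomial (Fin g) K) := Ideal.span (Set.range fun j : {j : Fin g // j ≠ i} =>
      (X (j : Fin g) : MvPolynomial (Fin g) K)) with hJ
  have hmap : J.map (algebraMap (MvPolynomial (Fin g) K) B) =
      Ideal.span (Set.range fun j : {j : Fin g // j ≠ i} => φ (X (j : Fin g))) := by
    rw [hJ, Ideal.map_span, ← Set.range_comp]
    rfl
  rw [← hmap] at h ⊢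
  let μ : (MvPolynomial (Fin g) K ⧸ J) →ₗ[MvPolynomial (Fin g) K] (MvPolynomial (Fin g) K ⧸ J) :=
    LinearMap.lsmul (MvPolynomial (Fin g) K) (MvPolynomial (Fin g) K ⧸ J) (X i)
  have hμ : Function.Injective μ := by
    rw [injective_iff_map_eq_zero]
    intro q hq
    obtain ⟨q, rfl⟩ := Ideal.Quotient.mk_surjective q
    have h1 : Ideal.Quotient.mk J (X i * q) = 0 := hq
    rw [Ideal.Quotient.eq_zero_iff_mem] at h1 ⊢
    exact coord_poly_regular i q h1
  have hinj := Module.Flat.lTensor_preserves_injective_linearMap (M := B) μ hμ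
  let e := Algebra.TensorProduct.quotIdealMapEquivTensorQuot B J
  have h1 : e (Ideal.Quotient.mk _ (φ (X i) * x)) = 0 := by
    rw [Ideal.Quotient.eq_zero_iff_mem.2 h, map_zero]
  have h2 : e (Ideal.Quotient.mk _ (φ (X i) * x)) =
      μ.lTensor B (x ⊗ₜ[MvPolynomial (Fin g) K] (1 : MvPolynomial (Fin g) K ⧸ J)) := by
    rw [LinearMap.lTensor_tmul]
    show (φ (X i) * x) ⊗ₜ[MvPolynomial (Fin g) K] (1 : MvPolynomial (Fin g) K ⧸ J) =
      x ⊗ₜ[MvPolynomial (Fin g) K] ((X i : MvPolynomial (Fin g) K) •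
        (1 : MvPolynomial (Fin g) K ⧸ J))
    rw [TensorProduct.tmul_smul, TensorProduct.smul_tmul']
    rfl
  rw [h2] at h1
  have h3 : x ⊗ₜ[MvPolynomial (Fin g) K] (1 : MvPolynomial (Fin g) K ⧸ J) = 0 :=
    hinj (by rw [h1, map_zero])
  have h4 : e (Ideal.Quotient.mk _ x) = 0 := h3
  rw [map_eq_zero_iff e e.injective] at h4
  exact Ideal.Quotient.eq_zero_iff_mem.1 h4

end Fermat.Agent.S26.Curves
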