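/-
S26, block CURVES (architect helper26), leaf ALG-CO1: etale coordinates generate the maximal ideal.
Mathlib only.
-/
import Mathlib

set_option autoImplicit false

universe u

open MvPolynomial

namespace Fermat.Agent.S26.Curves

/-- Unramified at `q`: every element of `q` is, up to a factor outside `q`, in `(q ∩ R) S`. -/
theorem coord_span_aux {R S : Type u} [CommRing R] [CommRing S] [Algebra R S] [Algebra.Etale R S]
    (q : Ideal S) [q.IsPrime] (x : S) (hx : x ∈ q) :
    ∃ s, s ∉ q ∧ s * x ∈ (q.under R).map (algebraMap R S) := by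
  let _ := Localization.AtPrime.algebraOfLiesOver (q.under R) q
  have h1 : Algebra.IsUnramifiedAt R q := inferInstance
  have h2 := ((Algebra.isUnramifiedAt_iff_map_eq R (q.under R) q).mp h1).2
  have h3 : algebraMap S (Localization.AtPrime q) x ∈
      IsLocalRing.maximalIdeal (Localization.AtPrime q) :=
    (IsLocalization.AtPrime.to_map_mem_maximal_iff _ q x).mpr hx
  rw [← h2, IsScalarTower.algebraMap_eq R S (Localization.AtPrime q), ← Ideal.map_map,
    IsLocalization.algebraMap_mem_map_algebraMap_iff q.primeCompl] at h3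
  obtain ⟨s, hs, h⟩ := h3
  exact ⟨s, hs, h⟩

/-- A polynomial with vanishing constant coefficient lies in the ideal of the variables. -/
theorem coord_span_mem_vars {K : Type u} [Field K] {g : ℕ} (f : MvPolynomial (Fin g) K)
    (hf : constantCoeff f = 0) : f ∈ Ideal.span (Set.range (X : Fin g → MvPolynomial (Fin g) K)) := by
  have h := (mem_pow_idealOfVars_iff' (σ := Fin g) (R := K) 1 f).mpr (by
    intro x hx
    have hx0 : x = 0 := by
      have : Finsupp.degree x = 0 := by omega
      exact (Finsupp.degree_eq_zero_iff x).mp this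
    rw [hx0]
    exact hf)
  simpa using h

variable {K B : Type u} [Field K] [CommRing B] [Algebra K B] {g : ℕ}

/-- (`m₀ = ker e₀` lies over `p = ker (aeval 0) = (X_j)_j` (`MvPolynomial`: `p` is spanned by the
`X j`: every polynomial is its constant term plus an element of the span).  Etale ⇒ unramified at
`m₀`; `Algebra.isUnramifiedAt_iff_map_eq` gives `p B_{m₀} = m₀ B_{m₀}`; clear denominators.) -/
theorem coord_span (φ : MvPolynomial (Fin g) K →ₐ[K] B) (hφ : φ.toRingHom.Etale)
    (e₀ : B →ₐ[K] K) (h0 : ∀ j, e₀ (φ (X j)) = 0) (x : B) (hx : e₀ x = 0) :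
    ∃ s, e₀ s ≠ 0 ∧ s * x ∈ Ideal.span (Set.range fun j => φ (X j)) := by
  let _ : Algebra (MvPolynomial (Fin g) K) B := φ.toRingHom.toAlgebra
  have hE : Algebra.Etale (MvPolynomial (Fin g) K) B := hφ
  have hq : (RingHom.ker e₀.toRingHom).IsPrime := RingHom.ker_isPrime _
  obtain ⟨s, hs, h⟩ := coord_span_aux (R := MvPolynomial (Fin g) K) (RingHom.ker e₀.toRingHom) x hx
  refine ⟨s, hs, ?_⟩
  have hcomp : e₀.comp φ = (aeval (fun _ => (0 : K)) : MvPolynomial (Fin g) K →ₐ[K] K) := by
    apply MvPolynomial.algHom_ext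
    intro j
    simp [h0 j]
  have hle : (RingHom.ker e₀.toRingHom).under (MvPolynomial (Fin g) K) ≤
      Ideal.span (Set.range (X : Fin g → MvPolynomial (Fin g) K)) := by
    intro f hf
    apply coord_span_mem_vars
    have h1 : e₀ (φ f) = 0 := hf
    have h2 : (e₀.comp φ) f = 0 := h1
    rw [hcomp, aeval_zero'] at h2
    exact h2
  have h3 := Ideal.map_mono (f := algebraMap (MvPolynomial (Fin g) K) B) hle h
  rw [Ideal.map_span, ← Set.range_comp] at h3
  exact h3

end Fermat.Agent.S26.Curves
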