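/-
S26, block CURVES (architect helper26), leaf ALG-CO4: the prime ideal of the `i`-th coordinate curve.
-/
import Fermat.Agent.S26.Curves.Alg.Coord.Span
import Fermat.Agent.S26.Curves.Alg.Coord.Regular
import Fermat.Agent.S26.Curves.Alg.Coord.LocalDomain

set_option autoImplicit false

universe u

open MvPolynomial

namespace Fermat.Agent.S26.Curves

variable {K B : Type u} [Field K] [CommRing B] [Algebra K B] {g : ℕ}

/-- The prime ideal `P` of the branch through the origin of the curve `t_j = 0` (`j ≠ i`).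
(`I = (φ X_j)_{j ≠ i}`, `m₀ = ker e₀ ⊇ I`, `S := Localization.AtPrime (m₀.map (Ideal.Quotient.mk I))`
(a localisation of `B ⧸ I`), noetherian (`B` is of finite type over `K`: etale over a polynomial
ring) and local; its maximal ideal is generated by the image of `φ X_i` (`coord_span`), which is a
nonzerodivisor (`coord_regular`; localisation preserves nonzerodivisors).  So `S` is a domain
(`isDomain_of_maximalIdeal_eq_span`); `P := ker (B → S)`.) -/
theorem coord_prime (φ : MvPolynomial (Fin g) K →ₐ[K] B) (hφ : φ.toRingHom.Etale)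
    (e₀ : B →ₐ[K] K) (h0 : ∀ j, e₀ (φ (X j)) = 0) (i : Fin g) :
    ∃ P : Ideal B, P.IsPrime ∧ (∀ x ∈ P, e₀ x = 0) ∧ (∀ j, j ≠ i → φ (X j) ∈ P) ∧
      φ (X i) ∉ P := by
  obtain ⟨hflat, -, hfp⟩ := RingHom.Etale.iff_flat_and_formallyUnramified.1 hφ
  -- `B` is noetherian
  have hB : IsNoetherianRing B := by
    let _ := φ.toRingHom.toAlgebra
    have : Algebra.FinitePresentation (MvPolynomial (Fin g) K) B := hfp
    have : Algebra.FiniteType (MvPolynomial (Fin g) K) B := inferInstance
    exact Algebra.FiniteType.isNoetherianRing (MvPolynomial (Fin g) K) B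
  set I : Ideal B := Ideal.span (Set.range fun j : {j : Fin g // j ≠ i} => φ (X (j : Fin g)))
    with hI
  set m₀ : Ideal B := RingHom.ker (e₀ : B →+* K) with hm₀
  have hmem : ∀ x, x ∈ m₀ ↔ e₀ x = 0 := fun x => Iff.rfl
  have hm₀p : m₀.IsPrime := RingHom.ker_isPrime _
  have hIm : I ≤ m₀ := by
    rw [hI, Ideal.span_le]
    rintro _ ⟨j, rfl⟩
    exact h0 j
  set n₀ : Ideal (B ⧸ I) := m₀.map (Ideal.Quotient.mk I) with hn₀
  have hn₀p : n₀.IsPrime := Ideal.map_isPrime_of_surjective Ideal.Quotient.mk_surjective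
    (by rw [Ideal.mk_ker]; exact hIm)
  set S := Localization.AtPrime n₀ with hS
  set f : B →+* S := (algebraMap (B ⧸ I) S).comp (Ideal.Quotient.mk I) with hf
  have hSn : IsNoetherianRing S := IsLocalization.isNoetherianRing n₀.primeCompl S inferInstance
  -- units
  have hunit : ∀ x, e₀ x ≠ 0 → IsUnit (f x) := by
    intro x hx
    refine IsLocalization.map_units S (⟨Ideal.Quotient.mk I x, ?_⟩ : n₀.primeCompl)
    intro h1
    exact hx ((Ideal.mem_quotient_iff_mem hIm).1 h1)
  have hzero : ∀ j, j ≠ i → f (φ (X j)) = 0 := by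
    intro j hj
    have : Ideal.Quotient.mk I (φ (X j)) = 0 :=
      Ideal.Quotient.eq_zero_iff_mem.2 (Ideal.subset_span ⟨⟨j, hj⟩, rfl⟩)
    show algebraMap (B ⧸ I) S (Ideal.Quotient.mk I (φ (X j))) = 0
    rw [this, map_zero]
  -- the maximal ideal
  have hmax : IsLocalRing.maximalIdeal S = Ideal.span {f (φ (X i))} := by
    rw [← Localization.AtPrime.map_eq_maximalIdeal]
    have h3 : Ideal.map (algebraMap (B ⧸ I) (Localization.AtPrime n₀)) n₀ = m₀.map f :=
      Ideal.map_map _ _
    rw [h3]
    apply le_antisymm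
    · rw [Ideal.map_le_iff_le_comap]
      intro x hx
      obtain ⟨s, hs, hsx⟩ := coord_span φ hφ e₀ h0 x hx
      rw [Ideal.mem_comap]
      have h1 : f (s * x) ∈ Ideal.span {f (φ (X i))} := by
        have h2 : Ideal.span (Set.range fun j => φ (X j)) ≤
            (Ideal.span {f (φ (X i))}).comap f := by
          rw [Ideal.span_le]
          rintro _ ⟨j, rfl⟩
          show f (φ (X j)) ∈ Ideal.span {f (φ (X i))}
          by_cases hj : j = i
          · rw [hj]; exact Ideal.mem_span_singleton_self _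
          · rw [hzero j hj]; exact zero_mem _
        exact h2 hsx
      rw [map_mul] at h1
      exact (Ideal.unit_mul_mem_iff_mem _ (hunit s hs)).1 h1
    · rw [Ideal.span_singleton_le_iff_mem]
      exact Ideal.mem_map_of_mem _ (h0 i)
  -- the generator is a nonzerodivisor
  have hreg : f (φ (X i)) ∈ nonZeroDivisors S := by
    apply IsLocalization.map_nonZeroDivisors_le n₀.primeCompl S
    refine ⟨Ideal.Quotient.mk I (φ (X i)), ?_, rfl⟩
    rw [SetLike.mem_coe, mem_nonZeroDivisors_iff_right]
    intro y hy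
    obtain ⟨x, rfl⟩ := Ideal.Quotient.mk_surjective y
    rw [← map_mul, Ideal.Quotient.eq_zero_iff_mem, mul_comm] at hy
    exact Ideal.Quotient.eq_zero_iff_mem.2 (coord_regular φ hflat i x hy)
  have hdom : IsDomain S := isDomain_of_maximalIdeal_eq_span _ hmax hreg
  refine ⟨RingHom.ker f, RingHom.ker_isPrime f, ?_, ?_, ?_⟩
  · intro x hx
    by_contra hne
    have h1 := hunit x hne
    rw [(RingHom.mem_ker).1 hx] at h1
    exact not_isUnit_zero h1
  · intro j hj
    exact hzero j hj
  · intro h1
    exact nonZeroDivisors.ne_zero hreg h1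

end Fermat.Agent.S26.Curves
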