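/-
S26, block CURVES (architect helper26), leaf ALG-CO5: the function field of the `i`-th coordinate
curve is finite separable over `K(t_i)`.
-/
import Fermat.Agent.S26.Curves.Alg.Sep.FinSep

set_option autoImplicit false

universe u

open MvPolynomial IntermediateField

namespace Fermat.Agent.S26.Curves

variable {K B F : Type u} [Field K] [CommRing B] [Algebra K B] [Field F] [Algebra K F] {g : ℕ}

/-- `F` is essentially of finite type over `K` (it is a localisation of the image of `B`). -/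
theorem essFiniteType_of_frac [Algebra.FiniteType K B] (ψ : B →ₐ[K] F)
    (hfrac : ∀ x : F, ∃ a b : B, ψ b ≠ 0 ∧ x = ψ a / ψ b) : Algebra.EssFiniteType K F := by
  have hft : Algebra.FiniteType K ψ.range :=
    Algebra.FiniteType.of_surjective ψ.rangeRestrict ψ.rangeRestrict_surjective
  have hfr : IsFractionRing ψ.range F := by
    refine IsFractionRing.of_field (R := ψ.range) (K := F) fun z => ?_
    obtain ⟨a, b, -, rfl⟩ := hfrac z
    exact ⟨⟨ψ a, a, rfl⟩, ⟨ψ b, b, rfl⟩, rfl⟩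
  have h1 : Algebra.EssFiniteType ψ.range F :=
    Algebra.EssFiniteType.of_isLocalization F (nonZeroDivisors ψ.range)
  exact Algebra.EssFiniteType.comp K ψ.range F

/-- `F` is formally unramified over `B` (a quotient followed by a localisation). -/
theorem coord_sep_formallyUnramified [Algebra B F]
    (hfrac : ∀ x : F, ∃ a b : B, algebraMap B F b ≠ 0 ∧ x = algebraMap B F a / algebraMap B F b) :
    Algebra.FormallyUnramified B F := by
  have hD : ∀ x : F, KaehlerDifferential.D B F x = 0 := by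
    intro x
    obtain ⟨a, b, -, rfl⟩ := hfrac x
    rw [Derivation.leibniz_div, Derivation.map_algebraMap, Derivation.map_algebraMap, smul_zero,
      smul_zero, sub_zero, smul_zero]
  have htop : (⊤ : Submodule F Ω[F⁄B]) = ⊥ := by
    rw [← KaehlerDifferential.span_range_derivation, Submodule.span_eq_bot]
    rintro _ ⟨x, rfl⟩
    exact hD x
  refine ⟨⟨fun a b => ?_⟩⟩
  have ha : a ∈ (⊥ : Submodule F Ω[F⁄B]) := htop ▸ Submodule.mem_top
  have hb : b ∈ (⊥ : Submodule F Ω[F⁄B]) := htop ▸ Submodule.mem_top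
  rw [(Submodule.mem_bot F).1 ha, (Submodule.mem_bot F).1 hb]

/-- the coordinate is transcendental -/
theorem coord_sep_transcendental (b : B) (e₀ : B →ₐ[K] K) (h0 : e₀ b = 0) (ψ : B →ₐ[K] F)
    (hker : ∀ x, ψ x = 0 → e₀ x = 0) (hi : ψ b ≠ 0) : Transcendental K (ψ b) := by
  rintro ⟨p, hp, hpt⟩
  obtain ⟨q, hq, hnd⟩ := Polynomial.exists_eq_pow_rootMultiplicity_mul_and_not_dvd p hp 0
  apply hnd
  rw [Polynomial.dvd_iff_isRoot, Polynomial.IsRoot.def]
  rw [hq, map_mul, map_pow, map_sub, Polynomial.aeval_X, Polynomial.aeval_C, map_zero,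
    sub_zero] at hpt
  have h1 : Polynomial.aeval (ψ b) q = 0 :=
    (mul_eq_zero.mp hpt).resolve_left (pow_ne_zero _ hi)
  rw [Polynomial.aeval_algHom_apply] at h1
  have h2 := hker _ h1
  rw [← Polynomial.aeval_algHom_apply, h0] at h2
  rwa [Polynomial.coe_aeval_eq_eval] at h2

/-- (`t := ψ (φ X_i)`.  TRANSCENDENTAL: if `p(t) = 0`, `p ≠ 0`, write `p = X^k q`, `q(0) ≠ 0`; then
`(φ X_i)^k * q(φ X_i) ∈ ker ψ`, a prime ideal, `ψ (φ X_i) ≠ 0`, so `ψ (q(φ X_i)) = 0`, so
`e₀ (q(φ X_i)) = q(0) = 0` by `hker`.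
SEPARABLE: `Ω[B⁄K]` is spanned over `B` by the `D (φ X_j)` because `Ω[B⁄K[X]] = 0`
(`KaehlerDifferential.exact_mapBaseChange_map`, `MvPolynomial` differentials are spanned by `D X_j`);
mapping to `Ω[F⁄K]` (`KaehlerDifferential.map`), `D (ψ b) ∈ span_F {D (ψ (φ X_j))} = F • D t` since
`ψ (φ X_j) = 0` for `j ≠ i`; by `hfrac` and the quotient rule `Ω[F⁄K] = F • D t`.  Conclude by
`finite_separable_of_span_D` and `essFiniteType_of_frac`.) -/
theorem coord_sep (φ : MvPolynomial (Fin g) K →ₐ[K] B) (hφ : φ.toRingHom.Etale)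
    (e₀ : B →ₐ[K] K) (h0 : ∀ j, e₀ (φ (X j)) = 0) (i : Fin g) (ψ : B →ₐ[K] F)
    (hker : ∀ x, ψ x = 0 → e₀ x = 0) (hj : ∀ j, j ≠ i → ψ (φ (X j)) = 0)
    (hi : ψ (φ (X i)) ≠ 0) (hfrac : ∀ x : F, ∃ a b : B, ψ b ≠ 0 ∧ x = ψ a / ψ b) :
    Transcendental K (ψ (φ (X i))) ∧ FiniteDimensional K⟮ψ (φ (X i))⟯ F ∧
      Algebra.IsSeparable K⟮ψ (φ (X i))⟯ F := by
  refine ⟨coord_sep_transcendental _ e₀ (h0 i) ψ hker hi, ?_⟩
  set t : F := ψ (φ (X i)) with ht
  -- the tower `K[X] → B → F`
  let algPB : Algebra (MvPolynomial (Fin g) K) B := φ.toRingHom.toAlgebra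
  let algBF : Algebra B F := ψ.toRingHom.toAlgebra
  let algPF : Algebra (MvPolynomial (Fin g) K) F := (ψ.comp φ).toRingHom.toAlgebra
  have tKPB : IsScalarTower K (MvPolynomial (Fin g) K) B :=
    IsScalarTower.of_algebraMap_eq fun a => (φ.commutes a).symm
  have tPBF : IsScalarTower (MvPolynomial (Fin g) K) B F := IsScalarTower.of_algebraMap_eq' rfl
  have hEt : Algebra.Etale (MvPolynomial (Fin g) K) B := hφ
  have hftB : Algebra.FiniteType K B :=
    Algebra.FiniteType.trans (S := MvPolynomial (Fin g) K) inferInstance inferInstance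
  have hess : Algebra.EssFiniteType K F := essFiniteType_of_frac ψ hfrac
  have hBF : Algebra.FormallyUnramified B F := coord_sep_formallyUnramified hfrac
  have hPF : Algebra.FormallyUnramified (MvPolynomial (Fin g) K) F :=
    Algebra.FormallyUnramified.comp (MvPolynomial (Fin g) K) B F
  -- the tower `K[X] → K(t) → F`
  let χ : MvPolynomial (Fin g) K →ₐ[K] K⟮t⟯ :=
    MvPolynomial.aeval fun j => if j = i then AdjoinSimple.gen K t else 0
  let algPE : Algebra (MvPolynomial (Fin g) K) K⟮t⟯ := χ.toRingHom.toAlgebra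
  have tPEF : IsScalarTower (MvPolynomial (Fin g) K) K⟮t⟯ F := by
    refine IsScalarTower.of_algebraMap_eq fun p => ?_
    have h : ψ.comp φ = (IsScalarTower.toAlgHom K K⟮t⟯ F).comp χ := by
      refine MvPolynomial.algHom_ext fun j => ?_
      simp only [AlgHom.comp_apply, χ, MvPolynomial.aeval_X]
      by_cases hji : j = i
      · subst hji
        rw [if_pos rfl]
        rfl
      · rw [if_neg hji, hj j hji, map_zero]
    exact AlgHom.congr_fun h p
  have hEF : Algebra.FormallyUnramified K⟮t⟯ F :=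
    Algebra.FormallyUnramified.of_restrictScalars (MvPolynomial (Fin g) K) K⟮t⟯ F
  have hessE : Algebra.EssFiniteType K⟮t⟯ F := Algebra.EssFiniteType.of_comp K K⟮t⟯ F
  exact ⟨Algebra.FormallyUnramified.finite_of_free K⟮t⟯ F,
    Algebra.FormallyUnramified.isSeparable K⟮t⟯ F⟩

end Fermat.Agent.S26.Curves
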